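import Mathlib.Algebra.Group.Subgroup.Finite
import Mathlib.Algebra.Module.ZMod
import Mathlib.Data.Fintype.Pigeonhole
import Mathlib.Order.WellFounded
import Mathlib.Data.Fintype.Order
import Mathlib.Logic.Function.Iterate

/-!
# S59 / LO-SQ, abstract lemma ALG (helper296)

`exists_eigen_of_image_eigen` : let `H` be a finite abelian group with a commuting family of
endomorphisms `T i`, `φ : H →+ V` a homomorphism which intertwines `T i` with `T' i`, and `x ≠ 0`
an element of the image of `φ` with `T' i x = a i • x` for all `i` (`a i : ℤ`).  Then `H` contains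
a nonzero `h` with `T i h = a i • h` for all `i`.

Use (memo `coord/S59-LOSQ-helper296.md`, (S2)): `H = J₀(qM')[p]²`, `φ = α^* + β^*`,
`V = J₀(q²M')`, `x` an inertia-fixed toric eigenclass; the conclusion is `OccursIn (qM')`.
No commutativity on `V`, no `p`-torsion hypothesis and no finiteness of the index set are needed.
-/

set_option autoImplicit false

namespace Fermat.Agent.S59.H296

variable {ι H V : Type*} [AddCommGroup H] [AddCommGroup V]

/-- The shifted operator `N i = T i - a i`. -/
def shiftOp (T : ι → H →+ H) (a : ι → ℤ) (i : ι) : H →+ H := T i - a i • AddMonoidHom.id H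

theorem shiftOp_apply (T : ι → H →+ H) (a : ι → ℤ) (i : ι) (h : H) :
    shiftOp T a i h = T i h - a i • h := by
  simp [shiftOp]

theorem shiftOp_comm (T : ι → H →+ H) (a : ι → ℤ)
    (hcomm : ∀ i j h, T i (T j h) = T j (T i h)) (i j : ι) (h : H) :
    T j (shiftOp T a i h) = shiftOp T a i (T j h) := by
  simp only [shiftOp_apply, map_sub, map_zsmul, hcomm j i h]

theorem shiftOp_iterate_comm (T : ι → H →+ H) (a : ι → ℤ)
    (hcomm : ∀ i j h, T i (T j h) = T j (T i h)) (i j : ι) (n : ℕ) (h : H) :
    T j ((shiftOp T a i)^[n] h) = (shiftOp T a i)^[n] (T j h) := by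
  induction n generalizing h with
  | zero => rfl
  | succ n ih =>
    rw [Function.iterate_succ_apply, Function.iterate_succ_apply, ih,
      shiftOp_comm T a hcomm i j h]

theorem iterate_map_zero (f : H →+ H) (n : ℕ) : f^[n] 0 = 0 := by
  induction n with
  | zero => rfl
  | succ n ih => rw [Function.iterate_succ_apply, map_zero, ih]

theorem iterate_map_sub (f : H →+ H) (n : ℕ) (x y : H) : f^[n] (x - y) = f^[n] x - f^[n] y := by
  induction n generalizing x y with
  | zero => rfl
  | succ n ih => rw [Function.iterate_succ_apply, Function.iterate_succ_apply,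
      Function.iterate_succ_apply, map_sub, ih]

theorem iterate_map_add (f : H →+ H) (n : ℕ) (x y : H) : f^[n] (x + y) = f^[n] x + f^[n] y := by
  induction n generalizing x y with
  | zero => rfl
  | succ n ih => rw [Function.iterate_succ_apply, Function.iterate_succ_apply,
      Function.iterate_succ_apply, map_add, ih]

theorem iterate_map_neg (f : H →+ H) (n : ℕ) (x : H) : f^[n] (-x) = -f^[n] x := by
  induction n generalizing x with
  | zero => rfl
  | succ n ih => rw [Function.iterate_succ_apply, Function.iterate_succ_apply, map_neg, ih]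

/-- A subgroup is stable under the family `T`. -/
def StableUnder (T : ι → H →+ H) (W : AddSubgroup H) : Prop := ∀ i, ∀ w ∈ W, T i w ∈ W

theorem StableUnder.shiftOp_mem {T : ι → H →+ H} {W : AddSubgroup H} (hW : StableUnder T W)
    (a : ι → ℤ) (i : ι) {w : H} (hw : w ∈ W) : shiftOp T a i w ∈ W := by
  rw [shiftOp_apply]
  exact W.sub_mem (hW i w hw) (W.zsmul_mem hw _)

theorem StableUnder.iterate_mem {T : ι → H →+ H} {W : AddSubgroup H} (hW : StableUnder T W)
    (a : ι → ℤ) (i : ι) (n : ℕ) {w : H} (hw : w ∈ W) : (shiftOp T a i)^[n] w ∈ W := by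
  induction n generalizing w with
  | zero => exact hw
  | succ n ih => rw [Function.iterate_succ_apply]; exact ih (hW.shiftOp_mem a i hw)

/-- The generalized kernel of `N i` inside a subgroup `W`. -/
def genKer (T : ι → H →+ H) (a : ι → ℤ) (i : ι) (W : AddSubgroup H) : AddSubgroup H where
  carrier := {w | w ∈ W ∧ ∃ n : ℕ, (shiftOp T a i)^[n] w = 0}
  zero_mem' := ⟨W.zero_mem, 0, rfl⟩
  add_mem' := by
    rintro x y ⟨hx, n, hn⟩ ⟨hy, m, hm⟩
    refine ⟨W.add_mem hx hy, n + m, ?_⟩
    rw [iterate_map_add]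
    have h1 : (shiftOp T a i)^[n + m] x = 0 := by
      rw [Nat.add_comm, Function.iterate_add_apply, hn, iterate_map_zero]
    have h2 : (shiftOp T a i)^[n + m] y = 0 := by
      rw [Function.iterate_add_apply, hm, iterate_map_zero]
    rw [h1, h2, add_zero]
  neg_mem' := by
    rintro x ⟨hx, n, hn⟩
    exact ⟨W.neg_mem hx, n, by rw [iterate_map_neg, hn, neg_zero]⟩

theorem genKer_le (T : ι → H →+ H) (a : ι → ℤ) (i : ι) (W : AddSubgroup H) :
    genKer T a i W ≤ W := fun _ hw => hw.1

theorem genKer_stable (T : ι → H →+ H) (a : ι → ℤ)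
    (hcomm : ∀ i j h, T i (T j h) = T j (T i h)) (i : ι) {W : AddSubgroup H}
    (hW : StableUnder T W) : StableUnder T (genKer T a i W) := by
  rintro j w ⟨hw, n, hn⟩
  refine ⟨hW j w hw, n, ?_⟩
  rw [← shiftOp_iterate_comm T a hcomm i j n w, hn, map_zero]

/-- Key step: in a finite group, an element `w` with `φ w = x`, `N' x = 0`, can be replaced by an
element of the generalized kernel of `N` with the same image. -/
theorem exists_genKer_preimage [Finite H] (T : ι → H →+ H) (T' : ι → V →+ V)
    (φ : H →+ V) (hφ : ∀ i h, φ (T i h) = T' i (φ h))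
    (a : ι → ℤ) {x : V} (heig : ∀ i, T' i x = a i • x) (i : ι)
    {W : AddSubgroup H} (hW : StableUnder T W) {w : H} (hw : w ∈ W) (hwx : φ w = x) :
    ∃ k ∈ genKer T a i W, φ k = x := by
  classical
  -- pigeonhole on the orbit of `w`
  obtain ⟨n, n', hne, heq⟩ :=
    Finite.exists_ne_map_eq_of_infinite (fun n : ℕ => (shiftOp T a i)^[n] w)
  wlog hlt : n < n' generalizing n n'
  · exact this n' n hne.symm heq.symm (lt_of_le_of_ne (not_lt.mp hlt) hne.symm)
  obtain ⟨m, rfl⟩ : ∃ m, n' = n + (m + 1) := by
    obtain ⟨m, hm⟩ := Nat.exists_eq_add_of_lt hlt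
    exact ⟨m, by omega⟩
  -- `k = w - N^{m+1} w`
  refine ⟨w - (shiftOp T a i)^[m + 1] w, ⟨W.sub_mem hw (hW.iterate_mem a i _ hw), n, ?_⟩, ?_⟩
  · have heq' : (shiftOp T a i)^[n] w = (shiftOp T a i)^[n + (m + 1)] w := heq
    rw [iterate_map_sub, ← Function.iterate_add_apply, ← heq', sub_self]
  · -- `φ (N^{m+1} w) = 0`
    have hN : ∀ (j : ℕ) (h : H), φ h = x → φ ((shiftOp T a i)^[j + 1] h) = 0 := by
      intro j
      induction j with
      | zero =>
        intro h hh
        rw [Function.iterate_one, shiftOp_apply, map_sub, map_zsmul, hφ, hh, heig, sub_self]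
      | succ j ih =>
        intro h hh
        rw [Function.iterate_succ_apply']
        rw [shiftOp_apply, map_sub, map_zsmul, hφ, ih h hh, map_zero, smul_zero, sub_zero]
    rw [map_sub, hN m w hwx, sub_zero, hwx]

/-- **ALG.** An eigenvector in the image of an equivariant homomorphism from a finite abelian
group with a commuting family of operators comes from an eigenvector of the source. -/
theorem exists_eigen_of_image_eigen [Finite H] (T : ι → H →+ H) (T' : ι → V →+ V)
    (hcomm : ∀ i j h, T i (T j h) = T j (T i h))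
    (φ : H →+ V) (hφ : ∀ i h, φ (T i h) = T' i (φ h))
    (a : ι → ℤ) {x : V} (hx : x ≠ 0) (hxim : ∃ h, φ h = x)
    (heig : ∀ i, T' i x = a i • x) :
    ∃ h : H, h ≠ 0 ∧ ∀ i, T i h = a i • h := by
  classical
  -- Step 1: a minimal stable subgroup whose image contains `x`
  let P : Set (AddSubgroup H) := {W | StableUnder T W ∧ ∃ w ∈ W, φ w = x}
  have hPne : P.Nonempty := by
    obtain ⟨h, hh⟩ := hxim
    exact ⟨⊤, fun _ _ _ => AddSubgroup.mem_top _, h, AddSubgroup.mem_top _, hh⟩
  obtain ⟨W, ⟨hWst, w, hwW, hwx⟩, hWmin⟩ :=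
    (wellFounded_lt (α := AddSubgroup H)).has_min P hPne
  -- Step 2: every `N i` is locally nilpotent on `W`
  have hnil : ∀ i, ∀ v ∈ W, ∃ n : ℕ, (shiftOp T a i)^[n] v = 0 := by
    intro i v hv
    obtain ⟨k, hk, hkx⟩ := exists_genKer_preimage T T' φ hφ a heig i hWst hwW hwx
    have hmem : genKer T a i W ∈ P := ⟨genKer_stable T a hcomm i hWst, k, hk, hkx⟩
    have hle : genKer T a i W ≤ W := genKer_le T a i W
    have heq : genKer T a i W = W := by
      by_contra hne
      exact hWmin _ hmem (lt_of_le_of_ne hle hne)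
    have : v ∈ genKer T a i W := by rw [heq]; exact hv
    exact this.2
  have hw0 : w ≠ 0 := by
    rintro rfl
    rw [map_zero] at hwx
    exact hx hwx.symm
  -- Step 3: a minimal nonzero stable subgroup of `W`
  let Q : Set (AddSubgroup H) := {U | StableUnder T U ∧ U ≤ W ∧ U ≠ ⊥}
  have hQne : Q.Nonempty :=
    ⟨W, hWst, le_rfl, fun hbot => hw0 (by simpa [hbot] using hwW)⟩
  obtain ⟨U, ⟨hUst, hUW, hUne⟩, hUmin⟩ :=
    (wellFounded_lt (α := AddSubgroup H)).has_min Q hQne
  obtain ⟨u, huU, hu0⟩ : ∃ u ∈ U, u ≠ 0 :=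
    (AddSubgroup.bot_or_exists_ne_zero U).resolve_left hUne
  -- every `N i` vanishes on `U`
  have hker : ∀ i, ∀ v ∈ U, shiftOp T a i v = 0 := by
    intro i
    -- the kernel of `N i` in `U`
    let K : AddSubgroup H :=
      { carrier := {v | v ∈ U ∧ shiftOp T a i v = 0}
        zero_mem' := ⟨U.zero_mem, map_zero _⟩
        add_mem' := by
          rintro x y ⟨hx, hx0⟩ ⟨hy, hy0⟩
          exact ⟨U.add_mem hx hy, by rw [map_add, hx0, hy0, add_zero]⟩
        neg_mem' := by
          rintro x ⟨hx, hx0⟩
          exact ⟨U.neg_mem hx, by rw [map_neg, hx0, neg_zero]⟩ }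
    have hKU : K ≤ U := fun _ hv => hv.1
    have hKst : StableUnder T K := by
      rintro j v ⟨hv, hv0⟩
      exact ⟨hUst j v hv, by rw [← shiftOp_comm T a hcomm i j v, hv0, map_zero]⟩
    have hKne : K ≠ ⊥ := by
      -- least `n` with `N^n u = 0`
      have hex : ∃ n : ℕ, (shiftOp T a i)^[n] u = 0 := hnil i u (hUW huU)
      have hpos : Nat.find hex ≠ 0 := by
        intro h0
        have := Nat.find_spec hex
        rw [h0] at this
        exact hu0 this
      obtain ⟨n, hn⟩ := Nat.exists_eq_succ_of_ne_zero hpos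
      have hlast : (shiftOp T a i)^[n] u ≠ 0 := by
        intro h0
        have := Nat.find_min' hex h0
        omega
      have hmem : (shiftOp T a i)^[n] u ∈ K := by
        refine ⟨hUst.iterate_mem a i n huU, ?_⟩
        have := Nat.find_spec hex
        rw [hn, Function.iterate_succ_apply'] at this
        exact this
      intro hbot
      rw [hbot] at hmem
      exact hlast ((AddSubgroup.mem_bot).mp hmem)
    have hKeq : K = U := by
      by_contra hne
      exact hUmin K ⟨hKst, hKU.trans hUW, hKne⟩ (lt_of_le_of_ne hKU hne)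
    intro v hv
    have : v ∈ K := by rw [hKeq]; exact hv
    exact this.2
  refine ⟨u, hu0, fun i => ?_⟩
  have := hker i u huU
  rw [shiftOp_apply, sub_eq_zero] at this
  exact this

end Fermat.Agent.S59.H296

namespace Fermat.Agent.S59.H296

variable {ι J V : Type*} [AddCommGroup J] [AddCommGroup V]

/-- The `p`-torsion subgroup of an abelian group, as the kernel of multiplication by `p`. -/
def torsionSub (J : Type*) [AddCommGroup J] (p : ℕ) : AddSubgroup J :=
  (nsmulAddMonoidHom (α := J) p).ker

theorem mem_torsionSub {p : ℕ} {z : J} : z ∈ torsionSub J p ↔ p • z = 0 := by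
  simp [torsionSub, AddMonoidHom.mem_ker]

/-- Restriction of an additive endomorphism to the `p`-torsion subgroup. -/
def torsionRestrict (p : ℕ) (f : J →+ J) : torsionSub J p →+ torsionSub J p where
  toFun z := ⟨f (z : J), by
    have hz : p • (z : J) = 0 := mem_torsionSub.mp z.2
    rw [mem_torsionSub, ← map_nsmul, hz, map_zero]⟩
  map_zero' := Subtype.ext (map_zero f)
  map_add' x y := Subtype.ext (map_add f (x : J) (y : J))

@[simp] theorem torsionRestrict_coe (p : ℕ) (f : J →+ J) (z : torsionSub J p) :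
    ((torsionRestrict p f z : torsionSub J p) : J) = f (z : J) := rfl

/-- **ALG, two-map form** (the form used for `x = α^* z + β^* z'`).  `J` an abelian group with
finitely many `p`-torsion points and a commuting family `T i` of additive endomorphisms;
`α β : J →+ V` intertwine `T i` with `T' i`.  If `x = α z + β z'` with `p z = p z' = 0` is a
nonzero joint eigenvector of the `T' i` with eigenvalues `a i`, then `J` has a nonzero `p`-torsion
joint eigenvector of the `T i` with the same eigenvalues. -/
theorem exists_eigen_of_add_eigen (p : ℕ) [Finite (torsionSub J p)]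
    (T : ι → J →+ J) (T' : ι → V →+ V)
    (hcomm : ∀ i j h, T i (T j h) = T j (T i h))
    (α β : J →+ V) (hα : ∀ i h, α (T i h) = T' i (α h)) (hβ : ∀ i h, β (T i h) = T' i (β h))
    (a : ι → ℤ) {x : V} (hx : x ≠ 0) {z z' : J} (hz : p • z = 0) (hz' : p • z' = 0)
    (hxz : x = α z + β z') (heig : ∀ i, T' i x = a i • x) :
    ∃ h : J, h ≠ 0 ∧ p • h = 0 ∧ ∀ i, T i h = a i • h := by
  classical
  let Jp := torsionSub J p
  let Tp : ι → (Jp × Jp) →+ (Jp × Jp) := fun i =>
    { toFun := fun q => (torsionRestrict p (T i) q.1, torsionRestrict p (T i) q.2)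
      map_zero' := by simp
      map_add' := fun x y => by simp }
  have hTp1 : ∀ i (q : Jp × Jp), (((Tp i q).1 : Jp) : J) = T i (q.1 : J) := fun _ _ => rfl
  have hTp2 : ∀ i (q : Jp × Jp), (((Tp i q).2 : Jp) : J) = T i (q.2 : J) := fun _ _ => rfl
  let φ : (Jp × Jp) →+ V :=
    (α.comp Jp.subtype).coprod (β.comp Jp.subtype)
  have hφ : ∀ i h, φ (Tp i h) = T' i (φ h) := by
    intro i q
    simp only [φ, AddMonoidHom.coprod_apply, AddMonoidHom.comp_apply,
      AddSubgroup.coe_subtype, hTp1, hTp2, hα, hβ, map_add]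
  have hcomm' : ∀ i j h, Tp i (Tp j h) = Tp j (Tp i h) := by
    intro i j q
    apply Prod.ext
    · apply Subtype.ext
      rw [hTp1, hTp1, hTp1, hTp1]
      exact hcomm i j _
    · apply Subtype.ext
      rw [hTp2, hTp2, hTp2, hTp2]
      exact hcomm i j _
  have hxim : ∃ h, φ h = x :=
    ⟨(⟨z, mem_torsionSub.mpr hz⟩, ⟨z', mem_torsionSub.mpr hz'⟩), by
      simp only [φ, AddMonoidHom.coprod_apply, AddMonoidHom.comp_apply, AddSubgroup.coe_subtype]
      exact hxz.symm⟩
  obtain ⟨⟨h₁, h₂⟩, hne, heig'⟩ := exists_eigen_of_image_eigen Tp T' hcomm' φ hφ a hx hxim heig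
  have h1 : ∀ i, T i (h₁ : J) = a i • (h₁ : J) := fun i => by
    have := congrArg (fun q : Jp × Jp => ((q.1 : Jp) : J)) (heig' i)
    simpa only [hTp1, Prod.smul_fst, AddSubgroup.coe_zsmul] using this
  have h2 : ∀ i, T i (h₂ : J) = a i • (h₂ : J) := fun i => by
    have := congrArg (fun q : Jp × Jp => ((q.2 : Jp) : J)) (heig' i)
    simpa only [hTp2, Prod.smul_snd, AddSubgroup.coe_zsmul] using this
  by_cases h10 : (h₁ : J) = 0
  · have h20 : (h₂ : J) ≠ 0 := by
      intro h20
      apply hne
      apply Prod.ext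
      · exact Subtype.ext h10
      · exact Subtype.ext h20
    exact ⟨h₂, h20, mem_torsionSub.mp h₂.2, h2⟩
  · exact ⟨h₁, h10, mem_torsionSub.mp h₁.2, h1⟩

end Fermat.Agent.S59.H296
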